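import Fermat.Agent.S16.Defs
import Fermat.Agent.S16.H428.Eis
import Fermat.Agent.S20.C0_helper980

/-!
# S16 / helper800 : WP E in the exact skeleton shape (`Skel.HasEis p`, unfolded)

Adapter on top of the landed `H428.exists_eisenstein` (helper428).
-/

set_option autoImplicit false

noncomputable section

namespace Fermat.Agent.S16.H800

open UpperHalfPlane ModularForm CongruenceSubgroup MatrixGroups ModularFormClass EisensteinSeries
open Fermat.Agent.S20 (MF SF)
open scoped Manifold

/-- WP E, skeleton shape (this is `Skel.HasEis p` unfolded). -/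
theorem exists_eis (p : ℕ) [NeZero p] :
    ∃ e ∈ MF (Gamma0 p) 2, qCoeff e 0 = ((p : ℂ) - 1) / 24 ∧
      ∀ k : ℕ, 1 ≤ k → qCoeff e k = (sigmaP p k : ℂ) := by
  obtain ⟨e, -, h0, hk⟩ := H428.exists_eisenstein p
  refine ⟨⇑e, Fermat.Agent.S20.C980.coe_mem_MF (Gamma0 p) e, h0, fun k hk1 => ?_⟩
  have := hk k (by omega)
  exact this

end Fermat.Agent.S16.H800
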